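/-
S19 project (architect helper107), package Alg/HFour, arithmetic core "(H4)" (helper227).
Helper file of `Fermat/Agent/S19/Alg/HFour.lean`.

Setting: `A` a valuation subring of `Qbar` over the prime `ℓ`, `I = A.inertiaSubgroupIn ℚ`,
`X` a set with an action of `Gal(Qbar/ℚ)`, `b j : X → Qbar` (finitely many) Galois-equivariant
`A`-valued functions which are `Qbar`-linearly independent and `ℚ`-saturated
(a rational combination of the `b j` with values in `A` has coefficients in `A`; this holds when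
the `b j` are a `ℤ_(ℓ)`-basis of the maximal order `Map_G(X, A)`).

Main result `h4_coord`: if `g = ∑ c j • b j` is `I`-equivariant with values in `A`, then every
coefficient `c j` lies in `A` and is fixed by `I`.  (So `Map_I(X, A) = Map_G(X, A) ⊗ Rur`.)

Ingredients:
* `h4_unit`       (U): a nonzero `I`-fixed element is `ℓ^m` times a unit of `A`
                   (from the CFT-P6 Bridge files, copied under `HFour227/Br`: value groups of
                   unramified local fields);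
* `h4_frobenius`  a Frobenius element of the decomposition group of `A`
                   (Mathlib: `Ideal.Quotient.stabilizerHom_surjective_of_profinite`);
* `h4_sat`        saturation, by induction on the support modulo the maximal ideal.
-/
import Mathlib
import Fermat.Agent.S19.HFour227.Br.Inertia
import Fermat.Agent.S19.HFour227.Br.Places
import Fermat.Agent.S19.HFour227.Br.UnramB

set_option autoImplicit false

open scoped Pointwise

namespace Fermat.Agent.S19.HFour227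

open Fermat.Agent.S19.HFour227.Br

variable (ℓ : ℕ) [Fact ℓ.Prime]

/-! ### Elementary facts on valuation subrings and the decomposition group -/

theorem h4_inv_mem {L : Type*} [Field L] (V : ValuationSubring L) {x : L} (hx : x ∈ V)
    (hx' : x ∉ V.nonunits) : x⁻¹ ∈ V ∧ x⁻¹ ∉ V.nonunits := by
  have h1 : V.valuation x = 1 := bv_valuation_eq_one_of_mem V hx hx'
  have h2 : V.valuation x⁻¹ = 1 := by rw [map_inv₀, h1, inv_one]
  refine ⟨(V.valuation_le_one_iff _).1 h2.le, ?_⟩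
  rw [ValuationSubring.mem_nonunits_iff, h2]
  exact lt_irrefl _

theorem h4_one_not_mem_nonunits {L : Type*} [Field L] (V : ValuationSubring L) :
    (1 : L) ∉ V.nonunits := by
  rw [ValuationSubring.mem_nonunits_iff, map_one]
  exact lt_irrefl _

theorem h4_mem_of_mem_nonunits {L : Type*} [Field L] (V : ValuationSubring L) {x : L}
    (hx : x ∈ V.nonunits) : x ∈ V := by
  rw [ValuationSubring.mem_nonunits_iff] at hx
  exact (V.valuation_le_one_iff _).1 hx.le

theorem h4_add_mem_nonunits {L : Type*} [Field L] (V : ValuationSubring L) {x y : L}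
    (hx : x ∈ V.nonunits) (hy : y ∈ V.nonunits) : x + y ∈ V.nonunits := by
  rw [ValuationSubring.mem_nonunits_iff] at hx hy ⊢
  exact lt_of_le_of_lt (V.valuation.map_add x y) (max_lt hx hy)

theorem h4_neg_mem_nonunits {L : Type*} [Field L] (V : ValuationSubring L) {x : L}
    (hx : x ∈ V.nonunits) : -x ∈ V.nonunits := by
  rw [ValuationSubring.mem_nonunits_iff] at hx ⊢
  rwa [Valuation.map_neg]

theorem h4_sub_mem_nonunits {L : Type*} [Field L] (V : ValuationSubring L) {x y : L}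
    (hx : x ∈ V.nonunits) (hy : y ∈ V.nonunits) : x - y ∈ V.nonunits := by
  rw [sub_eq_add_neg]
  exact h4_add_mem_nonunits V hx (h4_neg_mem_nonunits V hy)

theorem h4_mul_mem_nonunits' {L : Type*} [Field L] (V : ValuationSubring L) {x y : L}
    (hx : x ∈ V.nonunits) (hy : y ∈ V) : x * y ∈ V.nonunits := by
  rw [mul_comm]
  exact bv_mul_mem_nonunits V hy hx

/-- If `x * y` is a nonunit and `y` is a unit then `x` is a nonunit. -/
theorem h4_mem_nonunits_of_mul {L : Type*} [Field L] (V : ValuationSubring L) {x y : L}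
    (hy : y ∈ V) (hy' : y ∉ V.nonunits) (hxy : x * y ∈ V.nonunits) : x ∈ V.nonunits := by
  have h1 : V.valuation y = 1 := bv_valuation_eq_one_of_mem V hy hy'
  rw [ValuationSubring.mem_nonunits_iff, map_mul, h1, mul_one] at hxy
  rwa [ValuationSubring.mem_nonunits_iff]

/-- Elements of the decomposition group preserve `A`. -/
theorem h4_decomp_mem (A : ValuationSubring Qbar) (δ : GQ)
    (hδ : δ ∈ A.decompositionSubgroup ℚ) {x : Qbar} (hx : x ∈ A) : δ x ∈ A := by
  have h1 : δ • A = A := hδ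
  have h2 : δ • x ∈ δ • A := ValuationSubring.smul_mem_pointwise_smul δ x A hx
  rw [h1] at h2
  exact h2

/-- Elements of the decomposition group preserve the maximal ideal of `A`. -/
theorem h4_decomp_mem_nonunits (A : ValuationSubring Qbar) (δ : GQ)
    (hδ : δ ∈ A.decompositionSubgroup ℚ) {x : Qbar} (hx : x ∈ A.nonunits) :
    δ x ∈ A.nonunits := by
  rw [ValuationSubring.mem_nonunits_iff_or] at hx ⊢
  rcases hx with hx | hx
  · left; rw [hx, map_zero]
  · right
    intro h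
    apply hx
    have h3 := h4_decomp_mem A δ⁻¹ (inv_mem hδ) h
    rw [← map_inv₀] at h3
    have h4 : δ⁻¹ (δ x⁻¹) = x⁻¹ := by
      rw [← AlgEquiv.mul_apply, inv_mul_cancel, AlgEquiv.one_apply]
    rwa [h4] at h3

/-- The decomposition group normalises the inertia group. -/
theorem h4_conj_mem_inertia (A : ValuationSubring Qbar) (δ σ : GQ)
    (hδ : δ ∈ A.decompositionSubgroup ℚ) (hσ : σ ∈ A.inertiaSubgroupIn ℚ) :
    δ⁻¹ * σ * δ ∈ A.inertiaSubgroupIn ℚ := by
  rw [mem_inertiaSubgroupIn_iff] at hσ ⊢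
  obtain ⟨hσD, hσ⟩ := hσ
  refine ⟨mul_mem (mul_mem (inv_mem hδ) hσD) hδ, fun x hx => ?_⟩
  have h1 := hσ (δ x) (h4_decomp_mem A δ hδ hx)
  have h2 := h4_decomp_mem_nonunits A δ⁻¹ (inv_mem hδ) h1
  have h3 : δ⁻¹ (σ (δ x) - δ x) = (δ⁻¹ * σ * δ) x - x := by
    rw [map_sub, AlgEquiv.mul_apply, AlgEquiv.mul_apply]
    congr 1
    rw [← AlgEquiv.mul_apply, inv_mul_cancel, AlgEquiv.one_apply]
  rwa [h3] at h2

/-! ### (U): inertia-fixed elements have value in `ℓ ^ ℤ` -/

theorem h4_norm_emb_natCast (s : GQ) : ‖emb ℓ s (ℓ : Qbar)‖ = (ℓ : ℝ)⁻¹ := by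
  rw [emb_apply, map_natCast, map_natCast]
  exact bd_norm_natCast_q ℓ

/-- (U) A nonzero element of `Qbar` fixed by the inertia group of `A` is a power of `ℓ` times a
unit of `A`. -/
theorem h4_unit (A : ValuationSubring Qbar) (hA : A.LiesOverPrime ℓ) (c : Qbar) (hc0 : c ≠ 0)
    (hc : ∀ σ ∈ A.inertiaSubgroupIn ℚ, σ c = c) :
    ∃ (m : ℕ) (w : Qbar), w ∈ A ∧ w⁻¹ ∈ A ∧ (c = w * (ℓ : Qbar) ^ m ∨ c * (ℓ : Qbar) ^ m = w) := by
  obtain ⟨s, rfl⟩ := exists_smul_padicPlace_eq ℓ A hA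
  have hℓ : ℓ.Prime := Fact.out
  have hℓ0 : (ℓ : ℝ) ≠ 0 := by exact_mod_cast hℓ.ne_zero
  have hℓQ : (ℓ : Qbar) ≠ 0 := by exact_mod_cast hℓ.ne_zero
  let F : IntermediateField ℚ Qbar := IntermediateField.adjoin ℚ {c}
  have h1 : (s • padicPlace ℓ).inertiaSubgroupIn ℚ ≤ F.fixingSubgroup := by
    intro σ hσ
    rw [IntermediateField.mem_fixingSubgroup_iff]
    intro x hx
    have h2 : F ≤ IntermediateField.fixedField (Subgroup.zpowers σ) := by
      rw [IntermediateField.adjoin_le_iff]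
      intro y hy
      rw [Set.mem_singleton_iff.mp hy, SetLike.mem_coe, IntermediateField.mem_fixedField_iff]
      rintro τ ⟨k, rfl⟩
      show (σ ^ k) c = c
      have h3 : ∀ τ : GQ, τ c = c → τ⁻¹ c = c := fun τ h => by
        conv_lhs => rw [← h]
        rw [← AlgEquiv.mul_apply, inv_mul_cancel, AlgEquiv.one_apply]
      have h4 : ∀ n : ℕ, (σ ^ n) c = c := by
        intro n
        induction n with
        | zero => simp
        | succ n ih => rw [pow_succ, AlgEquiv.mul_apply, hc σ hσ, ih]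
      obtain ⟨n, rfl | rfl⟩ := Int.eq_nat_or_neg k
      · rw [zpow_natCast]; exact h4 n
      · rw [zpow_neg, zpow_natCast]; exact h3 _ (h4 n)
    have h5 := h2 hx
    rw [IntermediateField.mem_fixedField_iff] at h5
    exact h5 σ (Subgroup.mem_zpowers σ)
  have h2 : localInertia ℓ ≤ (localField ℓ F s⁻¹).fixingSubgroup := by
    intro τ hτ
    rw [mem_fixingSubgroup_localField_iff, inv_inv]
    apply h1
    rw [mem_inertiaSubgroupIn_smul_iff, ← map_localInertia]
    refine ⟨τ, hτ, ?_⟩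
    group
  have := bv_isAlgClosure_rat
  have hcint : IsIntegral ℚ c := Algebra.IsIntegral.isIntegral c
  have : FiniteDimensional ℚ F := IntermediateField.adjoin.finiteDimensional hcint
  have := finiteDimensional_localField ℓ F s⁻¹
  have h3 := isUnramifiedLocal_of_localInertia_le_fixingSubgroup ℓ _ h2
  have h4 : emb ℓ s⁻¹ c ∈ localField ℓ F s⁻¹ :=
    IntermediateField.subset_adjoin _ _ ⟨c, IntermediateField.mem_adjoin_simple_self ℚ c, rfl⟩
  have h5 : emb ℓ s⁻¹ c ≠ 0 := by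
    rw [Ne, map_eq_zero]; exact hc0
  obtain ⟨n, hn⟩ := h3 _ h4 h5
  have hmem : ∀ w : Qbar, ‖emb ℓ s⁻¹ w‖ = 1 → w ∈ s • padicPlace ℓ ∧ w⁻¹ ∈ s • padicPlace ℓ := by
    intro w hw
    rw [mem_smul_padicPlace_iff, mem_smul_padicPlace_iff, map_inv₀, norm_inv, hw, inv_one]
    exact ⟨le_refl _, le_refl _⟩
  obtain ⟨m, rfl | rfl⟩ := Int.eq_nat_or_neg n
  · -- `‖c‖ = ℓ ^ m`
    refine ⟨m, c * (ℓ : Qbar) ^ m, ?_, ?_, Or.inr rfl⟩
    · refine (hmem _ ?_).1
      rw [map_mul, map_pow, norm_mul, norm_pow, hn, h4_norm_emb_natCast, zpow_natCast, inv_pow,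
        mul_inv_cancel₀ (pow_ne_zero _ hℓ0)]
    · refine (hmem _ ?_).2
      rw [map_mul, map_pow, norm_mul, norm_pow, hn, h4_norm_emb_natCast, zpow_natCast, inv_pow,
        mul_inv_cancel₀ (pow_ne_zero _ hℓ0)]
  · -- `‖c‖ = ℓ ^ (-m)`
    have hw : ‖emb ℓ s⁻¹ (c * ((ℓ : Qbar) ^ m)⁻¹)‖ = 1 := by
      rw [map_mul, map_inv₀, map_pow, norm_mul, norm_inv, norm_pow, hn, h4_norm_emb_natCast,
        zpow_neg, zpow_natCast, inv_pow, inv_inv, inv_mul_cancel₀ (pow_ne_zero _ hℓ0)]
    refine ⟨m, c * ((ℓ : Qbar) ^ m)⁻¹, (hmem _ hw).1, (hmem _ hw).2, Or.inl ?_⟩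
    rw [mul_assoc, inv_mul_cancel₀ (pow_ne_zero _ hℓQ), mul_one]

/-- The valuation of `A` has rank one: every nonzero algebraic number divides a power of `ℓ`. -/
theorem h4_rank_one (A : ValuationSubring Qbar) (hA : A.LiesOverPrime ℓ) (a : Qbar) (ha : a ≠ 0) :
    ∃ c : ℕ, (ℓ : Qbar) ^ c * a⁻¹ ∈ A := by
  obtain ⟨s, rfl⟩ := exists_smul_padicPlace_eq ℓ A hA
  have hℓ : ℓ.Prime := Fact.out
  have hpos : 0 < ‖emb ℓ s⁻¹ a‖ := norm_pos_iff.2 (by rw [Ne, map_eq_zero]; exact ha)
  have hlt : ((ℓ : ℝ)⁻¹) < 1 := inv_lt_one_of_one_lt₀ (by exact_mod_cast hℓ.one_lt)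
  have hpos' : (0 : ℝ) ≤ (ℓ : ℝ)⁻¹ := by positivity
  obtain ⟨c, hc⟩ := exists_pow_lt_of_lt_one hpos hlt
  refine ⟨c, ?_⟩
  rw [mem_smul_padicPlace_iff, map_mul, map_pow, map_inv₀, norm_mul, norm_pow, norm_inv,
    h4_norm_emb_natCast, ← div_eq_mul_inv, div_le_one hpos]
  exact hc.le

/-- (U') A nonunit fixed by inertia is divisible by `ℓ`. -/
theorem h4_div_mem (A : ValuationSubring Qbar) (hA : A.LiesOverPrime ℓ) (e : Qbar)
    (he : e ∈ A.nonunits) (hfix : ∀ σ ∈ A.inertiaSubgroupIn ℚ, σ e = e) :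
    e * (ℓ : Qbar)⁻¹ ∈ A := by
  have hℓ : ℓ.Prime := Fact.out
  have hℓQ : (ℓ : Qbar) ≠ 0 := by exact_mod_cast hℓ.ne_zero
  have hℓA : (ℓ : Qbar) ∈ A := h4_mem_of_mem_nonunits A hA
  by_cases he0 : e = 0
  · rw [he0, zero_mul]; exact A.zero_mem
  obtain ⟨m, w, hw, hw', h | h⟩ := h4_unit ℓ A hA e he0 hfix
  · cases m with
    | zero =>
      exfalso
      rw [pow_zero, mul_one] at h
      rw [h] at he
      have h1 := bv_mul_mem_nonunits A hw' he
      rw [inv_mul_cancel₀ (by rintro rfl; exact he0 (by rw [h]))] at h1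
      exact h4_one_not_mem_nonunits A h1
    | succ m =>
      rw [h, pow_succ, mul_assoc, mul_assoc, mul_inv_cancel₀ hℓQ, mul_one]
      exact mul_mem hw (pow_mem hℓA m)
  · exfalso
    have h1 : w ∈ A.nonunits := by
      rw [← h]
      exact h4_mul_mem_nonunits' A he (pow_mem hℓA m)
    have h2 := bv_mul_mem_nonunits A hw' h1
    have hw0 : w ≠ 0 := by
      rw [← h]
      exact mul_ne_zero he0 (pow_ne_zero _ hℓQ)
    rw [inv_mul_cancel₀ hw0] at h2
    exact h4_one_not_mem_nonunits A h2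

/-! ### A Frobenius element in the decomposition group -/

section Frob

attribute [local instance] bv_isAlgClosure_rat

/-- There is an element of the decomposition group of `A` inducing `x ↦ x ^ ℓ` on the residue
field. -/
theorem h4_frobenius (A : ValuationSubring Qbar) (hA : A.LiesOverPrime ℓ) :
    ∃ δ : GQ, δ ∈ A.decompositionSubgroup ℚ ∧ ∀ a ∈ A, δ a - a ^ ℓ ∈ A.nonunits := by
  classical
  have hℓ : ℓ.Prime := Fact.out
  let L := AlgebraicClosure ℚ
  let G := L ≃ₐ[ℚ] L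
  let B := integralClosure ℤ L
  let _ : TopologicalSpace B := ⊥
  have : DiscreteTopology B := ⟨rfl⟩
  have : ContinuousSMul G B := by
    rw [continuousSMul_iff_stabilizer_isOpen]
    intro b
    have h1 := stabilizer_isOpen_of_isIntegral (K := ℚ) (L := L) (b : L)
    convert h1 using 1
    ext g
    rw [SetLike.mem_coe, SetLike.mem_coe, MulAction.mem_stabilizer_iff,
      MulAction.mem_stabilizer_iff, Subtype.ext_iff]
    rfl
  have : Algebra.IsInvariant ℤ B G := ⟨fun b hb => by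
    have h1 : (b : L) ∈ Set.range (algebraMap ℚ L) :=
      (InfiniteGalois.mem_range_algebraMap_iff_fixed (b : L)).2
        fun g => congrArg Subtype.val (hb g)
    obtain ⟨r, hr⟩ := h1
    have h2 : IsIntegral ℤ r := by
      have h3 : IsIntegral ℤ (algebraMap ℚ L r) := hr ▸ b.2
      exact (isIntegral_algebraMap_iff (algebraMap ℚ L).injective).1 h3
    obtain ⟨n, hn⟩ := IsIntegrallyClosed.algebraMap_eq_of_integral h2
    refine ⟨n, Subtype.ext ?_⟩
    rw [← hr, ← hn]
    simp⟩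
  let Q : Ideal B := bv_idealOf A
  have hQp : Q.IsPrime := bv_idealOf_isPrime A
  let P : Ideal ℤ := Ideal.span {(ℓ : ℤ)}
  have hQP : Q.LiesOver P := ⟨(bv_under_idealOf ℓ A hA).symm⟩
  have hcoe : ∀ (τ : G) (b : B), ((τ • b : B) : L) = τ (b : L) := fun _ _ => rfl
  have hℓQ : ((ℓ : ℕ) : B ⧸ Q) = 0 := by
    have h1 : ((ℓ : ℕ) : B ⧸ Q) = Ideal.Quotient.mk Q ((ℓ : ℕ) : B) := by simp
    rw [h1, Ideal.Quotient.eq_zero_iff_mem]
    show (((ℓ : ℕ) : B) : L) ∈ A.nonunits
    have h2 : (((ℓ : ℕ) : B) : L) = (ℓ : L) := by simp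
    rw [h2]
    exact hA
  have hchar : CharP (B ⧸ Q) ℓ := (CharP.charP_iff_prime_eq_zero hℓ).2 hℓQ
  let φ₀ : (B ⧸ Q) →ₐ[ℤ ⧸ P] (B ⧸ Q) :=
    { frobenius (B ⧸ Q) ℓ with
      commutes' := by
        intro r
        obtain ⟨n, rfl⟩ := Ideal.Quotient.mk_surjective r
        have h1 : algebraMap (ℤ ⧸ P) (B ⧸ Q) (Ideal.Quotient.mk P n) = ((n : ℤ) : B ⧸ Q) := by
          rw [Ideal.Quotient.algebraMap_mk_of_liesOver]
          simp
        show frobenius (B ⧸ Q) ℓ _ = _
        rw [h1, map_intCast] }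
  have hφ₀ : ∀ x, φ₀ x = x ^ ℓ := fun x => rfl
  have hφbij : Function.Bijective φ₀ := by
    constructor
    · exact frobenius_inj (B ⧸ Q) ℓ
    · intro x
      obtain ⟨b, rfl⟩ := Ideal.Quotient.mk_surjective x
      obtain ⟨y, hy⟩ := IsAlgClosed.exists_pow_nat_eq (b : L) hℓ.pos
      have hyint : IsIntegral ℤ y := IsIntegral.of_pow hℓ.pos (hy ▸ b.2)
      refine ⟨Ideal.Quotient.mk Q ⟨y, hyint⟩, ?_⟩
      rw [hφ₀, ← map_pow]
      congr 1
      exact Subtype.ext hy
  let φ : (B ⧸ Q) ≃ₐ[ℤ ⧸ P] (B ⧸ Q) := AlgEquiv.ofBijective φ₀ hφbij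
  obtain ⟨⟨δ, hδ⟩, hδφ⟩ := Ideal.Quotient.stabilizerHom_surjective_of_profinite (G := G) P Q φ
  have hδQ : δ • Q = Q := hδ
  have hfrobB : ∀ b : B, ((δ • b : B) : L) - (b : L) ^ ℓ ∈ A.nonunits := by
    intro b
    have h1 : Ideal.Quotient.stabilizerHom Q P G ⟨δ, hδ⟩ (Ideal.Quotient.mk Q b) =
        φ (Ideal.Quotient.mk Q b) := by rw [hδφ]
    rw [Ideal.Quotient.stabilizerHom_apply] at h1
    have h2 : φ (Ideal.Quotient.mk Q b) = Ideal.Quotient.mk Q (b ^ ℓ) := by
      show φ₀ _ = _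
      rw [hφ₀, map_pow]
    rw [h2, Ideal.Quotient.eq] at h1
    exact h1
  -- `δ` stabilises `A`
  have hδA : ∀ x ∈ A, δ x ∈ A := by
    have h2 : A ≤ δ⁻¹ • A := by
      refine bv_le_smul_of_idealOf ℓ A A hA δ⁻¹ ?_
      intro s hs hsA
      rw [inv_inv] at hsA
      have h3 : δ • (⟨s, hs⟩ : B) ∈ δ • Q := by
        rw [hδQ]
        exact hsA
      rw [Ideal.mem_pointwise_smul_iff_inv_smul_mem, inv_smul_smul] at h3
      exact h3
    intro x hx
    have h3 := h2 hx
    rw [ValuationSubring.mem_pointwise_smul_iff_inv_smul_mem, inv_inv] at h3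
    exact h3
  have hδA' : A ≤ δ • A := by
    refine bv_le_smul_of_idealOf ℓ A A hA δ ?_
    intro s hs hsA
    have h3 : (⟨s, hs⟩ : B) ∈ δ • Q := by
      rw [Ideal.mem_pointwise_smul_iff_inv_smul_mem]
      exact hsA
    rw [hδQ] at h3
    exact h3
  have hδD : δ ∈ A.decompositionSubgroup ℚ := by
    show δ • A = A
    refine le_antisymm ?_ hδA'
    intro x hx
    rw [ValuationSubring.mem_pointwise_smul_iff_inv_smul_mem] at hx
    have h3 := hδA _ hx
    rwa [AlgEquiv.smul_def, ← AlgEquiv.mul_apply, mul_inv_cancel, AlgEquiv.one_apply] at h3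
  refine ⟨δ, hδD, fun a ha => ?_⟩
  obtain ⟨s, hs, hsA, has⟩ := bv_exists_denominator A ℓ hℓ hA a ha (bv_isAlgebraic_int a)
  have hsA' : s ∈ A := bv_mem_of_isIntegral A hs
  have h1 := hfrobB ⟨a * s, has⟩
  have h2 := hfrobB ⟨s, hs⟩
  rw [hcoe] at h1 h2
  have h3 : (δ a - a ^ ℓ) * s ^ ℓ = (δ (a * s) - (a * s) ^ ℓ) - δ a * (δ s - s ^ ℓ) := by
    rw [map_mul]; ring
  have h4 : (δ a - a ^ ℓ) * s ^ ℓ ∈ A.nonunits := by
    rw [h3]
    exact h4_sub_mem_nonunits A h1 (bv_mul_mem_nonunits A (hδA a ha) h2)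
  have h5 : s ^ ℓ ∉ A.nonunits := by
    rw [ValuationSubring.mem_nonunits_iff, map_pow, bv_valuation_eq_one_of_mem A hsA' hsA, one_pow]
    exact lt_irrefl _
  exact h4_mem_nonunits_of_mul A (pow_mem hsA' ℓ) h5 h4

end Frob

/-! ### Residue classes fixed by Frobenius are rational integers -/

theorem h4_zero_mem_nonunits {L : Type*} [Field L] (V : ValuationSubring L) :
    (0 : L) ∈ V.nonunits := by
  rw [ValuationSubring.mem_nonunits_iff, map_zero]
  exact zero_lt_one

theorem h4_exists_int (A : ValuationSubring Qbar) (hA : A.LiesOverPrime ℓ) (a : Qbar) (ha : a ∈ A)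
    (h : a ^ ℓ - a ∈ A.nonunits) : ∃ r : ℤ, a - (r : Qbar) ∈ A.nonunits := by
  have hℓ : ℓ.Prime := Fact.out
  let k := IsLocalRing.ResidueField A
  have hres : ∀ x : A, IsLocalRing.residue A x = 0 ↔ (x : Qbar) ∈ A.nonunits := by
    intro x
    rw [IsLocalRing.residue_eq_zero_iff, ValuationSubring.coe_mem_nonunits_iff]
  have hchar : CharP k ℓ := by
    refine (CharP.charP_iff_prime_eq_zero hℓ).2 ?_
    have h1 : ((ℓ : ℕ) : k) = IsLocalRing.residue A ((ℓ : ℕ) : A) := by simp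
    rw [h1, hres]
    have h2 : (((ℓ : ℕ) : A) : Qbar) = (ℓ : Qbar) := by simp
    rw [h2]
    exact hA
  have h1 : (IsLocalRing.residue A ⟨a, ha⟩) ^ ℓ = IsLocalRing.residue A ⟨a, ha⟩ := by
    rw [← map_pow, ← sub_eq_zero, ← map_sub, hres]
    exact h
  have h2 := (Subfield.mem_bot_iff_pow_eq_self k ℓ).2 h1
  obtain ⟨n, hn⟩ := (mem_bot_iff_intCast ℓ k).1 h2
  refine ⟨n, ?_⟩
  have h3 : IsLocalRing.residue A (⟨a, ha⟩ - (n : A)) = 0 := by
    rw [map_sub, map_intCast, hn, sub_self]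
  rw [hres] at h3
  have h4 : (((⟨a, ha⟩ - (n : A) : A)) : Qbar) = a - (n : Qbar) := by simp
  rw [h4] at h3
  exact h3

/-! ### Saturation and the main theorem -/

section Sat

variable {X : Type} [MulAction GQ X] {ι : Type} [Fintype ι]

/-- Saturation: a combination of the `b j` with inertia-fixed coefficients in `A` whose values
are all divisible by `ℓ` has all its coefficients in the maximal ideal. -/
theorem h4_sat (A : ValuationSubring Qbar) (hA : A.LiesOverPrime ℓ)
    (b : ι → X → Qbar)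
    (hbeq : ∀ j (σ : GQ) (x : X), b j (σ • x) = σ (b j x))
    (hbA : ∀ j x, b j x ∈ A)
    (hO : ∀ q : ι → ℚ, (∀ x, ∑ j, (q j : Qbar) * b j x ∈ A) → ∀ j, (q j : Qbar) ∈ A)
    (n : ℕ) : ∀ (S : Finset ι) (c : ι → Qbar), S.card ≤ n →
      (∀ j, j ∉ S → c j ∈ A.nonunits) → (∀ j, c j ∈ A) →
      (∀ j, ∀ σ ∈ A.inertiaSubgroupIn ℚ, σ (c j) = c j) →
      (∀ x, (∑ j, c j * b j x) * (ℓ : Qbar)⁻¹ ∈ A) → ∀ j, c j ∈ A.nonunits := by
  classical
  induction n with
  | zero =>
    intro S c hcard hS hcA hcI hsum j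
    rw [Nat.le_zero, Finset.card_eq_zero] at hcard
    apply hS
    rw [hcard]
    exact Finset.notMem_empty j
  | succ n ih =>
    intro S c hcard hS hcA hcI hsum
    by_contra hcon
    push Not at hcon
    obtain ⟨j1, hj1⟩ := hcon
    have hj1S : j1 ∈ S := by
      by_contra h
      exact hj1 (hS j1 h)
    -- normalise the coefficient at `j1` to `1`
    obtain ⟨hu, hu'⟩ := h4_inv_mem A (hcA j1) hj1
    have hc1 : c j1 ≠ 0 := by
      intro h
      rw [h] at hj1
      exact hj1 (h4_zero_mem_nonunits A)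
    set u := (c j1)⁻¹ with hu_def
    let c' : ι → Qbar := fun j => c j * u
    have hc'A : ∀ j, c' j ∈ A := fun j => mul_mem (hcA j) hu
    have huI : ∀ σ ∈ A.inertiaSubgroupIn ℚ, σ u = u := by
      intro σ hσ
      rw [hu_def, map_inv₀, hcI j1 σ hσ]
    have hc'I : ∀ j, ∀ σ ∈ A.inertiaSubgroupIn ℚ, σ (c' j) = c' j := by
      intro j σ hσ
      show σ (c j * u) = c j * u
      rw [map_mul, hcI j σ hσ, huI σ hσ]
    have hc'sum : ∀ x, (∑ j, c' j * b j x) * (ℓ : Qbar)⁻¹ ∈ A := by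
      intro x
      have h1 : (∑ j, c' j * b j x) * (ℓ : Qbar)⁻¹ = u * ((∑ j, c j * b j x) * (ℓ : Qbar)⁻¹) := by
        rw [← mul_assoc, Finset.mul_sum]
        congr 1
        apply Finset.sum_congr rfl
        intro j _
        show c j * u * b j x = _
        ring
      rw [h1]
      exact mul_mem hu (hsum x)
    have hc'1 : c' j1 = 1 := mul_inv_cancel₀ hc1
    -- differences under the decomposition group
    have key : ∀ δ : GQ, δ ∈ A.decompositionSubgroup ℚ →
        ∀ j, δ (c' j) - c' j ∈ A.nonunits := by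
      intro δ hδ
      apply ih (S.erase j1) (fun j => δ (c' j) - c' j)
      · rw [Finset.card_erase_of_mem hj1S]
        omega
      · intro j hj
        rw [Finset.mem_erase, not_and_or, not_not] at hj
        rcases hj with rfl | hj
        · rw [hc'1, map_one, sub_self]
          exact h4_zero_mem_nonunits A
        · have h1 : c' j ∈ A.nonunits := h4_mul_mem_nonunits' A (hS j hj) hu
          exact h4_sub_mem_nonunits A (h4_decomp_mem_nonunits A δ hδ h1) h1
      · intro j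
        exact sub_mem (h4_decomp_mem A δ hδ (hc'A j)) (hc'A j)
      · intro j σ hσ
        rw [map_sub, hc'I j σ hσ]
        congr 1
        have h1 := hc'I j _ (h4_conj_mem_inertia A δ σ hδ hσ)
        rw [AlgEquiv.mul_apply, AlgEquiv.mul_apply] at h1
        have h2 := congrArg δ h1
        rwa [← AlgEquiv.mul_apply, mul_inv_cancel, AlgEquiv.one_apply] at h2
      · intro x
        have h1 := h4_decomp_mem A δ hδ (hc'sum (δ⁻¹ • x))
        have h2 : δ ((∑ j, c' j * b j (δ⁻¹ • x)) * (ℓ : Qbar)⁻¹) =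
            (∑ j, δ (c' j) * b j x) * (ℓ : Qbar)⁻¹ := by
          rw [map_mul, map_inv₀, map_natCast, map_sum]
          congr 1
          apply Finset.sum_congr rfl
          intro j _
          rw [map_mul, ← hbeq, smul_inv_smul]
        rw [h2] at h1
        have h3 : (∑ j, (δ (c' j) - c' j) * b j x) * (ℓ : Qbar)⁻¹ =
            (∑ j, δ (c' j) * b j x) * (ℓ : Qbar)⁻¹ - (∑ j, c' j * b j x) * (ℓ : Qbar)⁻¹ := by
          rw [← sub_mul, ← Finset.sum_sub_distrib]
          congr 1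
          apply Finset.sum_congr rfl
          intro j _
          ring
        rw [h3]
        exact sub_mem h1 (hc'sum x)
    -- Frobenius
    obtain ⟨δ, hδ, hfrob⟩ := h4_frobenius ℓ A hA
    have hpow : ∀ j, (c' j) ^ ℓ - c' j ∈ A.nonunits := by
      intro j
      have h1 := key δ hδ j
      have h2 := hfrob (c' j) (hc'A j)
      have h3 : (c' j) ^ ℓ - c' j = (δ (c' j) - c' j) - (δ (c' j) - (c' j) ^ ℓ) := by ring
      rw [h3]
      exact h4_sub_mem_nonunits A h1 h2
    choose r hr using fun j => h4_exists_int ℓ A hA (c' j) (hc'A j) (hpow j)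
    have he : ∀ j, (c' j - (r j : Qbar)) * (ℓ : Qbar)⁻¹ ∈ A := by
      intro j
      apply h4_div_mem ℓ A hA _ (hr j)
      intro σ hσ
      rw [map_sub, hc'I j σ hσ, map_intCast]
    have hq : ∀ x, ∑ j, (((r j : ℚ) / (ℓ : ℚ) : ℚ) : Qbar) * b j x ∈ A := by
      intro x
      have h1 : ∑ j, (((r j : ℚ) / (ℓ : ℚ) : ℚ) : Qbar) * b j x =
          (∑ j, c' j * b j x) * (ℓ : Qbar)⁻¹ -
            ∑ j, ((c' j - (r j : Qbar)) * (ℓ : Qbar)⁻¹) * b j x := by
        rw [Finset.sum_mul, ← Finset.sum_sub_distrib]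
        apply Finset.sum_congr rfl
        intro j _
        push_cast
        ring
      rw [h1]
      exact sub_mem (hc'sum x) (sum_mem fun j _ => mul_mem (he j) (hbA j x))
    have h6 := hO _ hq j1
    have hℓQ : (ℓ : Qbar) ≠ 0 := by
      have hℓ : ℓ.Prime := Fact.out
      exact_mod_cast hℓ.ne_zero
    have h7 : ((r j1 : ℤ) : Qbar) ∈ A.nonunits := by
      have h8 : ((r j1 : ℤ) : Qbar) = (((r j1 : ℚ) / (ℓ : ℚ) : ℚ) : Qbar) * (ℓ : Qbar) := by
        push_cast
        field_simp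
      rw [h8]
      exact bv_mul_mem_nonunits A h6 hA
    have h8 := hr j1
    rw [hc'1] at h8
    have h9 : (1 : Qbar) ∈ A.nonunits := by
      have h10 : (1 : Qbar) = (1 - (r j1 : Qbar)) + (r j1 : Qbar) := by ring
      rw [h10]
      exact h4_add_mem_nonunits A h8 h7
    exact h4_one_not_mem_nonunits A h9

/-- **(H4), coordinate form.**  Let `b j : X → Qbar` be Galois-equivariant `A`-valued functions,
linearly independent over `Qbar` and `ℚ`-saturated with respect to `A`.  If `g = ∑ c j • b j` is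
equivariant for the inertia group of `A` and takes its values in `A`, then all `c j` lie in `A`
and are fixed by the inertia group. -/
theorem h4_coord (A : ValuationSubring Qbar) (hA : A.LiesOverPrime ℓ)
    (b : ι → X → Qbar) (hb : LinearIndependent Qbar b)
    (hbeq : ∀ j (σ : GQ) (x : X), b j (σ • x) = σ (b j x))
    (hbA : ∀ j x, b j x ∈ A)
    (hO : ∀ q : ι → ℚ, (∀ x, ∑ j, (q j : Qbar) * b j x ∈ A) → ∀ j, (q j : Qbar) ∈ A)
    (c : ι → Qbar)
    (hg : ∀ σ ∈ A.inertiaSubgroupIn ℚ, ∀ x, ∑ j, c j * b j (σ • x) = σ (∑ j, c j * b j x))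
    (hgA : ∀ x, ∑ j, c j * b j x ∈ A) :
    (∀ j, c j ∈ A) ∧ ∀ j, ∀ σ ∈ A.inertiaSubgroupIn ℚ, σ (c j) = c j := by
  classical
  have hℓ : ℓ.Prime := Fact.out
  have hℓQ : (ℓ : Qbar) ≠ 0 := by exact_mod_cast hℓ.ne_zero
  have hℓA : (ℓ : Qbar) ∈ A := h4_mem_of_mem_nonunits A hA
  -- the coefficients are fixed by inertia
  have hfix : ∀ j, ∀ σ ∈ A.inertiaSubgroupIn ℚ, σ (c j) = c j := by
    intro j σ hσ
    have h1 : ∑ i, (c i - σ (c i)) • b i = 0 := by
      funext y
      have h2 := hg σ hσ (σ⁻¹ • y)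
      rw [smul_inv_smul, map_sum] at h2
      have h3 : ∀ i, σ (c i * b i (σ⁻¹ • y)) = σ (c i) * b i y := by
        intro i
        rw [map_mul, ← hbeq, smul_inv_smul]
      simp only [h3] at h2
      rw [← sub_eq_zero, ← Finset.sum_sub_distrib] at h2
      simp only [Finset.sum_apply, Pi.smul_apply, smul_eq_mul, Pi.zero_apply]
      rw [← h2]
      apply Finset.sum_congr rfl
      intro i _
      ring
    have h4 := (Fintype.linearIndependent_iff.1 hb) _ h1 j
    exact (sub_eq_zero.1 h4).symm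
  refine ⟨?_, hfix⟩
  -- bounded denominators
  have hbound : ∃ m : ℕ, ∀ j, c j * (ℓ : Qbar) ^ m ∈ A := by
    have h1 : ∀ j, ∃ m : ℕ, ∀ m' ≥ m, c j * (ℓ : Qbar) ^ m' ∈ A := by
      intro j
      by_cases hc0 : c j = 0
      · exact ⟨0, fun m' _ => by rw [hc0, zero_mul]; exact A.zero_mem⟩
      obtain ⟨m, w, hw, hw', h | h⟩ := h4_unit ℓ A hA (c j) hc0 (hfix j)
      · exact ⟨0, fun m' _ => by
          rw [h]; exact mul_mem (mul_mem hw (pow_mem hℓA m)) (pow_mem hℓA m')⟩
      · refine ⟨m, fun m' hm' => ?_⟩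
        obtain ⟨k, rfl⟩ := Nat.exists_eq_add_of_le hm'
        rw [pow_add, ← mul_assoc, h]
        exact mul_mem hw (pow_mem hℓA k)
    choose m hm using h1
    exact ⟨Finset.univ.sup m, fun j => hm j _ (Finset.le_sup (Finset.mem_univ j))⟩
  obtain ⟨m, hm⟩ := hbound
  induction m with
  | zero =>
    intro j
    have h1 := hm j
    rwa [pow_zero, mul_one] at h1
  | succ m ih =>
    apply ih
    intro j
    have hfix' : ∀ j, ∀ σ ∈ A.inertiaSubgroupIn ℚ,
        σ (c j * (ℓ : Qbar) ^ (m + 1)) = c j * (ℓ : Qbar) ^ (m + 1) := by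
      intro j σ hσ
      rw [map_mul, map_pow, map_natCast, hfix j σ hσ]
    have hsum : ∀ x, (∑ j, c j * (ℓ : Qbar) ^ (m + 1) * b j x) * (ℓ : Qbar)⁻¹ ∈ A := by
      intro x
      have h1 : (∑ j, c j * (ℓ : Qbar) ^ (m + 1) * b j x) * (ℓ : Qbar)⁻¹ =
          (∑ j, c j * b j x) * (ℓ : Qbar) ^ m := by
        rw [Finset.sum_mul, Finset.sum_mul]
        apply Finset.sum_congr rfl
        intro j _
        rw [pow_succ]
        field_simp
      rw [h1]
      exact mul_mem (hgA x) (pow_mem hℓA m)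
    have hsat := h4_sat ℓ A hA b hbeq hbA hO (Fintype.card ι) Finset.univ
      (fun j => c j * (ℓ : Qbar) ^ (m + 1)) (le_of_eq Finset.card_univ)
      (fun j hj => absurd (Finset.mem_univ j) hj) hm hfix' hsum j
    have h2 := h4_div_mem ℓ A hA _ hsat (hfix' j)
    rwa [pow_succ, ← mul_assoc, mul_assoc, mul_inv_cancel₀ hℓQ, mul_one] at h2

end Sat

end Fermat.Agent.S19.HFour227
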